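/-
S12/S15, block KW (architect helper269), node K0a: closure induction (Mathlib only).
-/
import Mathlib

set_option autoImplicit false

namespace Fermat.Agent.S12.KW

/-- **K0a.** Closure induction: a relation between `J` and `H`, additive and compatible with the generators
of a subring of `End J × R`, is compatible with the whole subring. -/
theorem rel_of_mem_closure {J H R : Type*} [AddCommGroup J] [AddCommGroup H] [Ring R]
    (act : R →+* Module.End ℤ H) (S : Set (AddMonoid.End J × R)) (Rel : J → H → Prop)
    (h0 : Rel 0 0) (hadd : ∀ a b c d, Rel a b → Rel c d → Rel (a + c) (b + d))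
    (hneg : ∀ a b, Rel a b → Rel (-a) (-b))
    (hgen : ∀ x ∈ S, ∀ a b, Rel a b → Rel (x.1 a) (act x.2 b))
    (x : AddMonoid.End J × R) (hx : x ∈ Subring.closure S) (a : J) (b : H) (h : Rel a b) :
    Rel (x.1 a) (act x.2 b) := by
  induction hx using Subring.closure_induction generalizing a b with
  | mem x hx => exact hgen x hx a b h
  | zero =>
    have h1 : ((0 : AddMonoid.End J × R).1) a = 0 := rfl
    have h2 : act (0 : AddMonoid.End J × R).2 b = 0 := by
      rw [Prod.snd_zero, map_zero, LinearMap.zero_apply]
    rw [h1, h2]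
    exact h0
  | one =>
    have h1 : ((1 : AddMonoid.End J × R).1) a = a := rfl
    have h2 : act (1 : AddMonoid.End J × R).2 b = b := by
      rw [Prod.snd_one, map_one, Module.End.one_apply]
    rw [h1, h2]
    exact h
  | add x y _ _ ihx ihy =>
    have h1 : ((x + y).1) a = x.1 a + y.1 a := rfl
    have h2 : act (x + y).2 b = act x.2 b + act y.2 b := by
      rw [Prod.snd_add, map_add, LinearMap.add_apply]
    rw [h1, h2]
    exact hadd _ _ _ _ (ihx a b h) (ihy a b h)
  | neg x _ ihx =>
    have h1 : ((-x).1) a = -(x.1 a) := rfl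
    have h2 : act (-x).2 b = -(act x.2 b) := by
      rw [Prod.snd_neg, map_neg, LinearMap.neg_apply]
    rw [h1, h2]
    exact hneg _ _ (ihx a b h)
  | mul x y _ _ ihx ihy =>
    have h1 : ((x * y).1) a = x.1 (y.1 a) := rfl
    have h2 : act (x * y).2 b = act x.2 (act y.2 b) := by
      rw [Prod.snd_mul, map_mul, Module.End.mul_apply]
    rw [h1, h2]
    exact ihx _ _ (ihy a b h)

end Fermat.Agent.S12.KW
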