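/-
S12/S15, block KW (architect helper269), node K0b: divisible elements of a f.g. group (Mathlib only).
(proof: helper111)
-/
import Mathlib

set_option autoImplicit false

namespace Fermat.Agent.S12.KW

/-- **K0b.** In a finitely generated abelian group an element divisible by every `n > 0` is zero. -/
theorem eq_zero_of_forall_dvd {A : Type*} [AddCommGroup A] (hfg : AddGroup.FG A) (y : A)
    (h : ∀ n : ℕ, 0 < n → ∃ z : A, n • z = y) : y = 0 := by
  obtain ⟨n, ι, _, p, hp, e, ⟨f⟩⟩ := AddCommGroup.equiv_free_prod_directSum_zmod A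
  apply f.injective
  rw [map_zero]
  refine Prod.ext ?_ ?_
  · ext k
    obtain ⟨z, hz⟩ := h (((f y).1 k).natAbs + 1) (Nat.succ_pos _)
    have h1 : (f y).1 k = ((((f y).1 k).natAbs + 1 : ℕ) : ℤ) * (f z).1 k := by
      conv_lhs => rw [← hz, map_nsmul]
      simp
    have h2 : ((((f y).1 k).natAbs + 1 : ℕ) : ℤ) ∣ (f y).1 k := ⟨_, h1⟩
    have h3 := Int.eq_zero_of_abs_lt_dvd h2 (by
      rw [Int.abs_eq_natAbs]
      push_cast
      omega)
    simpa using h3
  · refine DFinsupp.ext fun i => ?_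
    obtain ⟨z, hz⟩ := h (p i ^ e i) (pow_pos (hp i).pos _)
    have h1 : (f y).2 i = (p i ^ e i) • (f z).2 i := by
      rw [← hz, map_nsmul]
      rfl
    rw [h1, nsmul_eq_mul, ZMod.natCast_self, zero_mul]
    rfl

end Fermat.Agent.S12.KW
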