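/-
S12/S15, block KW (architect helper269), node K0c.
-/
import Fermat.Agent.S12.KW.AbsFG

set_option autoImplicit false

namespace Fermat.Agent.S12.KW

/-- **K0c.** `J` divisible, `J^G` finitely generated, `Θ` commutes with `G` and kills the torsion of `J`:
then `Θ` kills `J^G`. -/
theorem eq_zero_of_kills_torsion {J G : Type*} [AddCommGroup J] [Group G] [DistribMulAction G J]
    (hdiv : ∀ n : ℕ, 0 < n → ∀ x : J, ∃ y : J, n • y = x)
    (hfg : AddGroup.FG (FixedPoints.addSubgroup G J))
    (Θ : J →+ J) (hG : ∀ (g : G) (x : J), Θ (g • x) = g • Θ x)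
    (htors : ∀ n : ℕ, 0 < n → ∀ x : J, n • x = 0 → Θ x = 0)
    (D : J) (hD : ∀ g : G, g • D = D) : Θ D = 0 := by
  have hfix : ∀ g : G, g • Θ D = Θ D := fun g => by rw [← hG, hD]
  have key : (⟨Θ D, hfix⟩ : FixedPoints.addSubgroup G J) = 0 := by
    refine eq_zero_of_forall_dvd hfg _ fun n hn => ?_
    obtain ⟨R, hR⟩ := hdiv n hn D
    have hRfix : ∀ g : G, g • Θ R = Θ R := by
      intro g
      have h1 : n • (g • R - R) = 0 := by
        have h0 : n • (g • R) = g • (n • R) :=
          ((DistribSMul.toAddMonoidHom J g).map_nsmul n R).symm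
        rw [smul_sub, h0, hR, hD, sub_self]
      have h2 := htors n hn _ h1
      rw [map_sub, hG, sub_eq_zero] at h2
      exact h2
    refine ⟨⟨Θ R, hRfix⟩, ?_⟩
    apply Subtype.ext
    show n • Θ R = Θ D
    rw [← map_nsmul, hR]
  exact congrArg Subtype.val key

end Fermat.Agent.S12.KW
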