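/-
S12/S15, block KW of the plan FI (report #1479), architect helper269: definitions.

Level `M` (a prime in the applications).  `w` = the Fricke involution of `FN M`.  The subring
`corr M w` of `End (J₀(M)) × 𝕋` is generated by the pairs `(T_p, T_p)` (`p ∤ M`) and `(w, - U_r)`
(`r ∣ M`).  **KW**: an element of `corr M w` whose second component is `0` kills `J₀(M)(ℚ)`.
-/
import Fermat.Agent.S15.Defs
import Fermat.Agent.GAL.Mult.Defs
import Fermat.Agent.Lib.HeckeHom.Faithful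

set_option autoImplicit false

noncomputable section

namespace Fermat.Agent.S12.KW

open ModularCurve AlgebraicCurve CongruenceSubgroup
open Fermat.Agent.S24 Fermat.Agent.S15 Fermat.Agent.Lib.HeckeHom Fermat.Agent.GAL.Mult
open Fermat.Agent.S16.Lift

variable (M : ℕ) [NeZero M]

/-- `w` is the Fricke involution `j(q^d) ↦ j(q^(M/d))` of `FN M`. -/
def IsFricke (w : FN M ≃ₐ[Kbar] FN M) : Prop :=
  ∀ (d d' : ℕ) [NeZero d] [NeZero d'] (hd : d ∣ M) (hd' : d' ∣ M), d * d' = M →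
    w (JF M d hd) = JF M d' hd'

/-- The action of an automorphism of the function field on `J₀(M)`. -/
def autJ (w : FN M ≃ₐ[Kbar] FN M) : AddMonoid.End (JZero M) :=
  DistribSMul.toAddMonoidHom (JZero M) (SemilinearAut.ofAlgAut w)

omit [NeZero M] in
theorem autJ_apply (w : FN M ≃ₐ[Kbar] FN M) (D : JZero M) :
    autJ M w D = SemilinearAut.ofAlgAut w • D := rfl

/-- The Hecke algebra of weight 2 and level `M` (all `T_p`, `p ∤ M`, and `U_r`, `r ∣ M`). -/
abbrev HA : Type := CuspForm.heckeAlgebra M 2 (∅ : Set ℕ)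

variable {M} in
/-- `T_p` in `HA M`. -/
def tH {p : ℕ} (hp : p.Prime) (hpM : ¬ p ∣ M) : HA M :=
  CuspForm.heckeAlgebra.T hp hpM (Set.notMem_empty p)

variable {M} in
/-- `U_r` in `HA M`. -/
def uH {r : ℕ} (hr : r.Prime) (hrM : r ∣ M) : HA M :=
  CuspForm.heckeAlgebra.U hr hrM (Set.notMem_empty r)

/-- The pairs `(T_p, T_p)`. -/
def corrGenT : Set (AddMonoid.End (JZero M) × HA M) :=
  {x | ∃ (p : ℕ) (hp : p.Prime) (hpM : ¬ p ∣ M), x = (Tp M p, tH hp hpM)}

/-- The generators of `corr`. -/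
def corrGen (w : FN M ≃ₐ[Kbar] FN M) : Set (AddMonoid.End (JZero M) × HA M) :=
  corrGenT M ∪ {x | ∃ (r : ℕ) (hr : r.Prime) (hrM : r ∣ M), x = (autJ M w, - uH hr hrM)}

/-- The ring of pairs generated by the `(T_p, T_p)`, `p ∤ M`. -/
def corrT : Subring (AddMonoid.End (JZero M) × HA M) := Subring.closure (corrGenT M)

/-- The ring of pairs (endomorphism of `J₀(M)`, Hecke operator on cusp forms) generated by
`(T_p, T_p)` and `(w, - U_r)`. -/
def corr (w : FN M ≃ₐ[Kbar] FN M) : Subring (AddMonoid.End (JZero M) × HA M) :=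
  Subring.closure (corrGen M w)

/-- **KW**. -/
def KWStatement : Prop :=
  ∀ w : FN M ≃ₐ[Kbar] FN M, IsFricke M w → ∀ x ∈ corr M w, x.2 = 0 →
    ∀ D : JZero M, IsRat M D → x.1 D = 0

/-- The dictionary between `J₀(M)[n]` and `Hom_{par,ell}(Γ₀(M), ℤ/n)`: `D = [E]`, `n E = div u`,
`ψ` = the multiplier system of an `n`-th root of `u`. -/
def Rel (n : ℕ) [NeZero n] (D : JZero M) (ψ : homPE M (ZMod n)) : Prop :=
  ∃ (u : FN M) (E : Divisor.degZero (K := Kbar) (F := FN M)), u ≠ 0 ∧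
    (∀ v : Place Kbar (FN M), v.ord u = (n : ℤ) * (E : Divisor Kbar (FN M)) v) ∧
    D = Pic0.mk E ∧ IsMult M n u ψ.1

end Fermat.Agent.S12.KW

end
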