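/-
S12/S15, block KW (architect helper269), node K6: the elements of `corr` commute with the Galois action.
-/
import Fermat.Agent.S12.KW.Defs
import Fermat.Agent.S15.HJ.Equiv
import Fermat.Agent.GAL.E.Embed
import Fermat.Agent.GAL.E.Defs

set_option autoImplicit false

namespace Fermat.Agent.S12.KW

open ModularCurve AlgebraicCurve CongruenceSubgroup
open Fermat.Agent.S24 Fermat.Agent.S15 Fermat.Agent.Lib.HeckeHom Fermat.Agent.GAL.Mult

variable (M : ℕ) [NeZero M]

/-- `w` commutes with the Galois action on `FN M` (both sides are ring homomorphisms; compare on the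
constants and on the generators `JF M d`, which have rational coefficients: cf. the proof of
`GAL.E.galF_wAL`, `ringHom_ext_FN`). -/
theorem fricke_galois (w : FN M ≃ₐ[Kbar] FN M) (hw : IsFricke M w) (σ : GQ) :
    SemilinearAut.ofAlgAut w * arithmeticGalois (modularFunctionFieldFull M) σ =
      arithmeticGalois (modularFunctionFieldFull M) σ * SemilinearAut.ofAlgAut w := by
  have hJ : ∀ (d : ℕ) [NeZero d] (hd : d ∣ M),
      arithmeticRingAut (modularFunctionFieldFull M) σ (JF M d hd) = JF M d hd := by
    intro d _ hd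
    apply Subtype.ext
    rw [coe_arithmeticRingAut_apply]
    show coeffMap (σ : Kbar →+* Kbar) (coeffEmb Kbar (qExpand ℚ d jq)) = coeffEmb Kbar _
    ext k
    rw [coeffMap_coeff, coeffEmb_coeff]
    exact map_ratCast (σ : Kbar →+* Kbar) _
  have key : ((w : FN M ≃+* FN M) : FN M →+* FN M).comp
      (arithmeticRingAut (modularFunctionFieldFull M) σ : FN M →+* FN M) =
      (arithmeticRingAut (modularFunctionFieldFull M) σ : FN M →+* FN M).comp
        ((w : FN M ≃+* FN M) : FN M →+* FN M) := by
    refine Fermat.Agent.GAL.E.ringHom_ext_FN _ _ ?_ ?_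
    · intro d _ hd
      obtain ⟨d', hd'⟩ := hd
      have : NeZero d' := ⟨fun h0 => NeZero.ne M (by rw [hd', h0, mul_zero])⟩
      show w (arithmeticRingAut (modularFunctionFieldFull M) σ (JF M d _)) =
        arithmeticRingAut (modularFunctionFieldFull M) σ (w (JF M d _))
      rw [hJ, hw d d' _ ⟨d, by rw [hd', mul_comm]⟩ hd'.symm, hJ]
    · intro c
      show w (arithmeticRingAut (modularFunctionFieldFull M) σ (algebraMap Kbar (FN M) c)) =
        arithmeticRingAut (modularFunctionFieldFull M) σ (w (algebraMap Kbar (FN M) c))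
      rw [arithmeticRingAut_algebraMap, AlgEquiv.commutes, AlgEquiv.commutes,
        arithmeticRingAut_algebraMap]
  refine Subtype.ext (Prod.ext (RingEquiv.ext fun x => ?_) ?_)
  · exact RingHom.congr_fun key x
  · show (1 : RingAut Kbar) * σ.toRingEquiv = σ.toRingEquiv * 1
    rw [one_mul, mul_one]

theorem autJ_galois (w : FN M ≃ₐ[Kbar] FN M) (hw : IsFricke M w) (σ : GQ) (D : JZero M) :
    autJ M w (σ • D) = σ • autJ M w D := by
  rw [autJ_apply, autJ_apply, galois_smul_pic0_def, galois_smul_pic0_def, ← mul_smul, ← mul_smul,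
    fricke_galois M w hw σ]

/-- closure induction, `S15.heckeGalois`, `autJ_galois`. -/
theorem corr_galois (w : FN M ≃ₐ[Kbar] FN M) (hw : IsFricke M w)
    (x : AddMonoid.End (JZero M) × HA M) (hx : x ∈ corr M w) (σ : GQ) (D : JZero M) :
    x.1 (σ • D) = σ • x.1 D := by
  induction hx using Subring.closure_induction generalizing D with
  | mem y hy =>
    rcases hy with ⟨p, hp, hpM, rfl⟩ | ⟨r, hr, hrM, rfl⟩
    · exact Fermat.Agent.S15.heckeGalois M p hp hpM σ D
    · exact autJ_galois M w hw σ D
  | zero =>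
    show (0 : AddMonoid.End (JZero M)) (σ • D) = σ • (0 : AddMonoid.End (JZero M)) D
    rw [AddMonoid.End.zero_apply, AddMonoid.End.zero_apply, smul_zero]
  | one => rfl
  | add a b _ _ ha hb =>
    show a.1 (σ • D) + b.1 (σ • D) = σ • (a.1 D + b.1 D)
    rw [ha, hb, smul_add]
  | neg a _ ha =>
    show -(a.1 (σ • D)) = σ • (-(a.1 D))
    rw [ha, smul_neg]
  | mul a b _ _ ha hb =>
    show a.1 (b.1 (σ • D)) = σ • a.1 (b.1 D)
    rw [hb, ha]

end Fermat.Agent.S12.KW
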