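/-
S12/S15, block KW (architect helper269), node K5: formal properties of the dictionary `Rel`.
-/
import Fermat.Agent.S12.KW.Defs
import Fermat.Agent.GAL.Mult.Package

set_option autoImplicit false

namespace Fermat.Agent.S12.KW

open ModularCurve AlgebraicCurve CongruenceSubgroup
open Fermat.Agent.S24 Fermat.Agent.S15 Fermat.Agent.Lib.HeckeHom Fermat.Agent.GAL.Mult
open Fermat.Agent.S16.Lift

variable (M : ℕ) [NeZero M] (n : ℕ) [NeZero n]

/-- `u = 1`, `E = 0` (`isMult_pow 1`). -/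
theorem rel_zero : Rel M n 0 0 := by
  refine ⟨1, 0, one_ne_zero, fun v => ?_, rfl, ?_⟩
  · rw [Place.ord_one]
    simp
  · have h := isMult_pow (N := M) (n := n) 1 one_ne_zero
    rw [one_pow] at h
    exact h

/-- `IsMult.mul`. -/
theorem rel_add (D : JZero M) (ψ : homPE M (ZMod n)) (D' : JZero M) (ψ' : homPE M (ZMod n))
    (h : Rel M n D ψ) (h' : Rel M n D' ψ') : Rel M n (D + D') (ψ + ψ') := by
  obtain ⟨u, E, hu, hord, rfl, hm⟩ := h
  obtain ⟨u', E', hu', hord', rfl, hm'⟩ := h'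
  refine ⟨u * u', E + E', mul_ne_zero hu hu', fun v => ?_, rfl, hm.mul hm'⟩
  rw [v.ord_mul hu hu', hord, hord', AddSubgroup.coe_add, Finsupp.add_apply, mul_add]

/-- `n • D = 0` for `D` in the dictionary. -/
theorem nsmul_eq_zero_of_rel {D : JZero M} {ψ : homPE M (ZMod n)} (h : Rel M n D ψ) :
    n • D = 0 := by
  obtain ⟨u, E, hu, hord, rfl, -⟩ := h
  have e : n • Pic0.mk E = Pic0.mk (n • E) := rfl
  rw [e]
  refine (QuotientAddGroup.eq_zero_iff _).2 ?_
  rw [AddSubgroup.mem_addSubgroupOf]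
  refine ⟨u, hu, fun v => ?_⟩
  rw [hord, AddSubgroup.coe_nsmul, Finsupp.smul_apply, nsmul_eq_mul]

theorem rel_nsmul (D : JZero M) (ψ : homPE M (ZMod n)) (h : Rel M n D ψ) (k : ℕ) :
    Rel M n (k • D) (k • ψ) := by
  induction k with
  | zero =>
    rw [zero_nsmul, zero_nsmul]
    exact rel_zero M n
  | succ k ih =>
    rw [succ_nsmul, succ_nsmul]
    exact rel_add M n _ _ _ _ ih h

/-- e.g. `- D = (n - 1) • D`, `- ψ = (n - 1) • ψ`, or directly with `u⁻¹`. -/
theorem rel_neg (D : JZero M) (ψ : homPE M (ZMod n)) (h : Rel M n D ψ) : Rel M n (-D) (-ψ) := by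
  have hn : n - 1 + 1 = n := Nat.sub_add_cancel (Nat.pos_of_ne_zero (NeZero.ne n))
  have h1 : -D = (n - 1) • D := by
    rw [neg_eq_iff_add_eq_zero, ← succ_nsmul', hn]
    exact nsmul_eq_zero_of_rel M n h
  have h2 : -ψ = (n - 1) • ψ := by
    rw [neg_eq_iff_add_eq_zero, ← succ_nsmul', hn]
    exact nsmul_homPE_eq_zero M n ψ
  rw [h1, h2]
  exact rel_nsmul M n D ψ h (n - 1)

end Fermat.Agent.S12.KW
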