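/-
S12/S15, block KW (architect helper269), node K5E: the dictionary `Rel` is everywhere defined on the torsion and injective.
-/
import Fermat.Agent.S12.KW.Defs
import Fermat.Agent.GAL.Mult.Package

set_option autoImplicit false

namespace Fermat.Agent.S12.KW

open ModularCurve AlgebraicCurve CongruenceSubgroup
open Fermat.Agent.S24 Fermat.Agent.S15 Fermat.Agent.Lib.HeckeHom Fermat.Agent.GAL.Mult
open Fermat.Agent.S16.Lift

variable (M : ℕ) [NeZero M] (n : ℕ) [NeZero n]

/-- Every `n`-torsion class is in the dictionary (`exists_isMult`, `IsMult.kills_*`,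
`Package.mem_homPE_of_kills`). -/
theorem exists_rel (D : JZero M) (hD : n • D = 0) : ∃ ψ : homPE M (ZMod n), Rel M n D ψ := by
  obtain ⟨E, rfl⟩ := Pic0.mk_surjective D
  have h1 : ((n • E : Divisor.degZero (K := Kbar) (F := FN M)) : Divisor Kbar (FN M)) ∈
      Divisor.principal (K := Kbar) (F := FN M) := by
    have h2 : (QuotientAddGroup.mk (n • E) : JZero M) = 0 := by
      have h3 : (QuotientAddGroup.mk (n • E) : JZero M) = n • Pic0.mk E := rfl
      rw [h3, hD]
    exact (QuotientAddGroup.eq_zero_iff (n • E)).1 h2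
  obtain ⟨u, hu, hord⟩ := h1
  have hord' : ∀ v : Place Kbar (FN M), v.ord u = (n : ℤ) * (E : Divisor Kbar (FN M)) v := by
    intro v
    rw [← hord v]
    have h5 : ((n • E : Divisor.degZero (K := Kbar) (F := FN M)) : Divisor Kbar (FN M)) =
        n • (E : Divisor Kbar (FN M)) := rfl
    rw [h5, Finsupp.smul_apply, nsmul_eq_mul]
  have hdiv : ∀ v : Place Kbar (FN M), (n : ℤ) ∣ v.ord u := fun v => ⟨_, hord' v⟩
  obtain ⟨ψ, hψ⟩ := exists_isMult (n := n) u hu hdiv
  exact ⟨⟨ψ, Package.mem_homPE_of_kills ⟨hψ.kills_S hdiv, hψ.kills_ST hdiv, hψ.kills_T hdiv⟩⟩,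
    u, E, hu, hord', rfl, hψ⟩

/-- Injectivity (`IsMult.exists_pow_eq`): `u = v ^ n`, so `E = div v`. -/
theorem eq_zero_of_rel_zero {D : JZero M} (h : Rel M n D 0) : D = 0 := by
  obtain ⟨u, E, hu, hord, rfl, hψ⟩ := h
  have hdiv : ∀ v : Place Kbar (FN M), (n : ℤ) ∣ v.ord u := fun v => ⟨_, hord v⟩
  obtain ⟨v, rfl⟩ := IsMult.exists_pow_eq (n := n) hψ hdiv
  have hv : v ≠ 0 := by
    rintro rfl
    exact hu (zero_pow (NeZero.ne n))
  have hn : (n : ℤ) ≠ 0 := Nat.cast_ne_zero.2 (NeZero.ne n)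
  have hE : ∀ w : Place Kbar (FN M), (E : Divisor Kbar (FN M)) w = w.ord v := by
    intro w
    have h1 := hord w
    rw [Fermat.Agent.S24.FF.ord_pow] at h1
    exact (mul_left_cancel₀ hn h1).symm
  exact (QuotientAddGroup.eq_zero_iff E).2 ⟨v, hv, hE⟩

end Fermat.Agent.S12.KW
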