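/-
S12/S15, block KW (architect helper269), node K5T: the dictionary `Rel` is compatible with `T_p`.
-/
import Fermat.Agent.S12.KW.Defs
import Fermat.Agent.GAL.Mult.MultT
import Fermat.Agent.S15.HJ.Comm

set_option autoImplicit false

namespace Fermat.Agent.S12.KW

open ModularCurve AlgebraicCurve CongruenceSubgroup
open Fermat.Agent.S24 Fermat.Agent.S15 Fermat.Agent.Lib.HeckeHom Fermat.Agent.GAL.Mult
open Fermat.Agent.S16.Lift

variable (M : ℕ) [NeZero M] (n : ℕ) [NeZero n]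

/-- `u ↦ heckeF M p u = (heckeOp M p hp hpM).T u`, `E ↦ heckeDiv M p E`:
`S15.Tp_eq`, `S37.HeckeInputs.heckeOperatorAlong_mk`, `S15.HJ.heckeDiv_of_ord`, `S15.HJ.heckeF_ne_zero`,
`GAL.E.heckeOp_T`, `IsMult.heckeOp`, `coe_actMod_T`. -/
theorem rel_T {p : ℕ} (hp : p.Prime) (hpM : ¬ p ∣ M) (D : JZero M) (ψ : homPE M (ZMod n))
    (h : Rel M n D ψ) :
    Rel M n (Tp M p D)
      (actMod M ∅ n (tH hp hpM) ψ) := by
  have : NeZero p := ⟨hp.ne_zero⟩
  obtain ⟨u, E, hu, hord, rfl, hm⟩ := h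
  refine ⟨GAL.E.heckeF M p u,
    ⟨S37.HeckeInputs.heckeDiv M p E, S37.HeckeInputs.heckeDiv_mem_degZero M p E.2⟩,
    S15.HJ.heckeF_ne_zero M p hu, ?_, ?_, ?_⟩
  · intro v
    have h1 := S15.HJ.heckeDiv_of_ord M p hu (D := n • (E : Divisor Kbar (FN M)))
      (fun v => by
        rw [hord v]
        simp) v
    rw [← h1, map_nsmul]
    simp
  · rw [S15.Tp_eq]
    exact S37.HeckeInputs.heckeOperatorAlong_mk M p E
  · have h2 := hm.heckeOp (GAL.E.heckeOp M p hp hpM) hp hpM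
    have h3 := coe_actMod_T M ∅ n hp hpM (Set.notMem_empty p) ψ
    have h4 : (actMod M ∅ n (tH hp hpM) ψ).1 = heckeHomT hp hpM ψ.1 := h3
    rw [h4]
    exact h2

end Fermat.Agent.S12.KW
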