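/-
S12/S15, block KW (architect helper269), node K1: the Fricke involution of `FN (1 * q)` is induced by the
matrix `S41.wMat 1 q h = ρ₀ diag(q, 1)`, `ρ₀ ∈ SL₂(ℤ)`.
-/
import Fermat.Agent.S12.KW.Defs
import Fermat.Agent.S41.Fam

set_option autoImplicit false

namespace Fermat.Agent.S12.KW

open UpperHalfPlane CongruenceSubgroup ModularForm
open Fermat.Agent.S24 Fermat.Agent.S24.B Fermat.Agent.Lib.HeckeHom Fermat.Agent.GAL.Mult
open scoped MatrixGroups

theorem wMat_det_pos {q : ℕ} (hq : q ≠ 0) (h : Nat.Coprime q 1) :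
    0 < (S41.wMat 1 q h).det.val := by
  unfold S41.wMat
  rw [map_mul, Units.val_mul, incl_apply, Matrix.SpecialLinearGroup.det_mapGL, Units.val_one,
    one_mul]
  exact det_heckeDiagMatrix_pos q

/-- proportional matrices of positive determinant act in the same way on `ℍ` -/
theorem realW_smul_eq_of_proportional {g g' : GL (Fin 2) ℝ} (hg : 0 < g.det.val)
    (hg' : 0 < g'.det.val) {c : ℝ} (hc : c ≠ 0)
    (h : ∀ i j, g i j = c * g' i j) (τ : ℍ) : g • τ = g' • τ := by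
  apply UpperHalfPlane.ext
  rw [coe_smul_of_det_pos hg, coe_smul_of_det_pos hg', num, denom, num, denom, h, h, h, h]
  have hc' : (c : ℂ) ≠ 0 := by exact_mod_cast hc
  push_cast
  rw [show (c : ℂ) * (g' 0 0 : ℝ) * (τ : ℂ) + c * (g' 0 1 : ℝ) =
      c * ((g' 0 0 : ℝ) * (τ : ℂ) + (g' 0 1 : ℝ)) by ring,
    show (c : ℂ) * (g' 1 0 : ℝ) * (τ : ℂ) + c * (g' 1 1 : ℝ) =
      c * ((g' 1 0 : ℝ) * (τ : ℂ) + (g' 1 1 : ℝ)) by ring, mul_div_mul_left _ _ hc']

theorem realW_dilMat_eq (q : ℕ) [NeZero q] : dilMat q = heckeDiagMatrix q := by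
  apply Units.ext
  rw [val_heckeDiagMatrix (NeZero.ne q)]
  rfl

/-- `j (w τ) = j (q τ)` -/
theorem realW_jfun_wMat {q : ℕ} [NeZero q] (h : Nat.Coprime q 1) (τ : ℍ) :
    jfun (S41.wMat 1 q h • τ) = jfun (dilMat q • τ) := by
  unfold S41.wMat
  rw [mul_smul, realW_dilMat_eq, incl_apply]
  exact Stubs.jfun_smul (S41.rho0SL 1 q h) (heckeDiagMatrix q • τ)

/-- `j (q (w τ)) = j (τ)` -/
theorem realW_jfun_dilMat_wMat {q : ℕ} [NeZero q] (h : Nat.Coprime q 1) (τ : ℍ) :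
    jfun (dilMat q • S41.wMat 1 q h • τ) = jfun τ := by
  have hq0 : q ≠ 0 := NeZero.ne q
  have hbez := S41.fam_bezout 1 q h
  let γ : SL(2, ℤ) := ⟨!![(q : ℤ) * Int.gcdA q 1, - Int.gcdB q 1; 1, 1], by
    rw [Matrix.det_fin_two_of]
    push_cast at hbez
    linarith⟩
  have hpos : 0 < (dilMat q * S41.wMat 1 q h).det.val := by
    rw [map_mul, Units.val_mul, realW_dilMat_eq]
    exact mul_pos (det_heckeDiagMatrix_pos q) (wMat_det_pos hq0 h)
  have hpos' : 0 < (Matrix.SpecialLinearGroup.mapGL ℝ γ).det.val := by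
    rw [Matrix.SpecialLinearGroup.det_mapGL]
    exact one_pos
  have key : (dilMat q * S41.wMat 1 q h) • τ = Matrix.SpecialLinearGroup.mapGL ℝ γ • τ := by
    refine realW_smul_eq_of_proportional hpos hpos' (c := (q : ℝ)) (by exact_mod_cast hq0) ?_ τ
    intro i j
    have e : ∀ (δ : SL(2, ℤ)) (i j : Fin 2),
        (Matrix.SpecialLinearGroup.mapGL ℝ δ : GL (Fin 2) ℝ) i j = ((δ i j : ℤ) : ℝ) := by
      intro δ i j
      simp
    unfold S41.wMat
    rw [realW_dilMat_eq, Units.val_mul, Units.val_mul, val_heckeDiagMatrix hq0, incl_apply]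
    have e00 : (S41.rho0 1 q h : SL(2, ℤ)) 0 0 = Int.gcdA q (1 : ℕ) := rfl
    have e01 : (S41.rho0 1 q h : SL(2, ℤ)) 0 1 = - Int.gcdB q (1 : ℕ) := rfl
    have e10 : (S41.rho0 1 q h : SL(2, ℤ)) 1 0 = ((1 : ℕ) : ℤ) := rfl
    have e11 : (S41.rho0 1 q h : SL(2, ℤ)) 1 1 = (q : ℤ) := rfl
    have f00 : γ 0 0 = (q : ℤ) * Int.gcdA q 1 := rfl
    have f01 : γ 0 1 = - Int.gcdB q 1 := rfl
    have f10 : γ 1 0 = 1 := rfl
    have f11 : γ 1 1 = 1 := rfl
    fin_cases i <;> fin_cases j <;>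
      simp [Matrix.mul_apply, Fin.sum_univ_two, e, e00, e01, e10, e11, f00, f01, f10, f11] <;>
      first | ring1 | (left; ring1)
  rw [← mul_smul, key]
  exact Stubs.jfun_smul γ τ

theorem realW_real_JF {N : ℕ} [NeZero N] (d : ℕ) [NeZero d] (hd : d ∣ N) :
    real N (JF N d hd) = algebraMap Hol MM (abToHol N (alToAB N (jd N d hd))) := by
  rw [real_apply, PsiL_apply, Psi_JF, lnToLL_algebraMap, embL_algebraMap]

theorem realW_real_smul {N : ℕ} [NeZero N] (g : GL(2, ℝ)⁺) (d d' : ℕ) [NeZero d] [NeZero d']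
    (hd : d ∣ N) (hd' : d' ∣ N)
    (hj : ∀ τ : ℍ, jfun (dilMat d' • τ) = jfun (dilMat d • (g : GL (Fin 2) ℝ) • τ)) :
    real N (JF N d' hd') = g⁻¹ • real N (JF N d hd) := by
  rw [realW_real_JF, realW_real_JF, smul_algebraMap_Hol]
  refine congrArg (algebraMap Hol MM) (Subtype.ext (funext fun τ => ?_))
  rw [smul_Hol_apply, inv_inv, abToHol_apply, alToAB_apply, abToHol_apply, alToAB_apply]
  exact hj τ

set_option synthInstance.maxHeartbeats 400000 in
/-- Both sides are `ℚ̄`-algebra homomorphisms `FN (1 * q) → MM`; compare them on the generators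
`JF (1 * q) d`, `d ∈ {1, q}` (`algHom_ext_FN`, `Psi_JF`, `jd`):
`j (w τ) = j (q τ)` and `j (q (w τ)) = j (τ)`. -/
theorem real_fricke {q : ℕ} (hq : q.Prime) (h : Nat.Coprime q 1) [NeZero (1 * q)]
    (w : FN (1 * q) ≃ₐ[Kbar] FN (1 * q)) (hw : IsFricke (1 * q) w) (u : FN (1 * q)) :
    real (1 * q) (w u) =
      (⟨S41.wMat 1 q h, wMat_det_pos hq.ne_zero h⟩ : GL(2, ℝ)⁺)⁻¹ • real (1 * q) u := by
  have : NeZero q := ⟨hq.ne_zero⟩
  set g : GL(2, ℝ)⁺ := ⟨S41.wMat 1 q h, wMat_det_pos hq.ne_zero h⟩ with hg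
  have hφ : ∀ x : MM, g⁻¹ • x = MulSemiringAction.toRingHom GL(2, ℝ)⁺ MM g⁻¹ x := fun _ => rfl
  refine FN_induction (P := fun u => real (1 * q) (w u) = g⁻¹ • real (1 * q) u) ?_ ?_ ?_ ?_ ?_ ?_ u
  · intro d hne hd
    have hd' : d ∣ q := by rwa [one_mul] at hd
    rcases (Nat.dvd_prime hq).1 hd' with rfl | rfl
    · rw [hw 1 q hd (Dvd.intro_left 1 rfl) rfl]
      refine realW_real_smul g 1 q _ _ fun τ => ?_
      rw [dilMat_one, one_smul]
      exact (realW_jfun_wMat h τ).symm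
    · rw [hw d 1 hd (one_dvd _) (by rw [mul_one, one_mul])]
      refine realW_real_smul g d 1 _ _ fun τ => ?_
      rw [dilMat_one, one_smul]
      exact (realW_jfun_dilMat_wMat h τ).symm
  · intro c
    rw [AlgEquiv.commutes, AlgHom.commutes, smul_algebraMap_Kbar_MM]
  · intro f f' hf hf'
    rw [hφ] at hf hf' ⊢
    rw [map_add, map_add, map_add, RingHom.map_add, hf, hf']
  · intro f hf
    rw [hφ] at hf ⊢
    rw [map_neg, map_neg, map_neg, RingHom.map_neg, hf]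
  · intro f f' hf hf'
    rw [hφ] at hf hf' ⊢
    rw [map_mul, map_mul, map_mul, RingHom.map_mul, hf, hf']
  · intro f hf
    rw [hφ] at hf ⊢
    rw [map_inv₀, map_inv₀, map_inv₀, map_inv₀, hf]

end Fermat.Agent.S12.KW
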