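/-
S12/S15, block KW (architect helper269), nodes K2, K3: the multiplier system of `w u` is `al ψ`.
-/
import Fermat.Agent.S12.KW.RealW
import Fermat.Agent.S41.Defs
import Fermat.Agent.GAL.Mult.Hecke

set_option autoImplicit false

namespace Fermat.Agent.S12.KW

open UpperHalfPlane CongruenceSubgroup
open Fermat.Agent.S24 Fermat.Agent.S24.B Fermat.Agent.Lib.HeckeHom Fermat.Agent.GAL.Mult
open scoped MatrixGroups

variable {q : ℕ} (hq : q.Prime) (h : Nat.Coprime q 1)

include hq in
/-- `S41.isCorr_al` in the shape of `Lib/HeckeHom/Abstract`. -/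
theorem isHeckeFamily_al :
    IsHeckeFamily (incl (1 * q)) (fun _ : Unit => S41.wMat 1 q h) := by
  have H := S41.isCorr_al 1 q hq h
  exact ⟨H.inj, H.disj, H.stable⟩

theorem heckeHom_al {A : Type*} [AddCommGroup A] (ψ : Additive (Gamma0 (1 * q)) →+ A) :
    (isHeckeFamily_al hq h).heckeHom ψ = S41.al 1 q hq h ψ := by
  refine AddMonoidHom.ext fun γ => ?_
  obtain ⟨γ, rfl⟩ := Additive.ofMul.surjective γ
  rw [IsHeckeFamily.heckeHom_apply, Finset.univ_unique, Finset.sum_singleton]
  exact (S41.al_apply 1 q hq h ψ ((isHeckeFamily_al hq h).spec γ default)).symm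

/-- `IsMult.hecke` for the one-element family, with `real_fricke`. -/
theorem isMult_fricke [NeZero (1 * q)] {n : ℕ} [NeZero n]
    (w : FN (1 * q) ≃ₐ[Kbar] FN (1 * q)) (hw : IsFricke (1 * q) w) {u : FN (1 * q)}
    {ψ : Additive (Gamma0 (1 * q)) →+ ZMod n} (hm : IsMult (1 * q) n u ψ) :
    IsMult (1 * q) n (w u) (S41.al 1 q hq h ψ) := by
  rw [← heckeHom_al hq h]
  refine IsMult.hecke (isHeckeFamily_al hq h) (fun _ => wMat_det_pos hq.ne_zero h) ?_ hm
  rw [Finset.univ_unique, Finset.prod_singleton]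
  exact real_fricke hq h w hw u

end Fermat.Agent.S12.KW
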