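/-
S12/S15, block KW (architect helper269), node K4a: `Hom(SL₂(ℤ), ℤ) = 0`.
-/
import Mathlib

set_option autoImplicit false

namespace Fermat.Agent.S12.KW

open CongruenceSubgroup
open scoped MatrixGroups

private theorem sl2_S_pow : (ModularGroup.S : SL(2, ℤ)) ^ 4 = 1 := by
  apply Subtype.ext
  rw [Matrix.SpecialLinearGroup.coe_pow, ModularGroup.coe_S, Matrix.SpecialLinearGroup.coe_one]
  simp [pow_succ, Matrix.one_fin_two]

private theorem sl2_ST_pow : (ModularGroup.S * ModularGroup.T : SL(2, ℤ)) ^ 6 = 1 := by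
  apply Subtype.ext
  rw [Matrix.SpecialLinearGroup.coe_pow, Matrix.SpecialLinearGroup.coe_mul, ModularGroup.coe_S,
    ModularGroup.coe_T, Matrix.SpecialLinearGroup.coe_one]
  simp [pow_succ, Matrix.one_fin_two]

/-- `Γ₀(1) = SL₂(ℤ)` is generated by `S` (of order 4) and `S T` (of order 6), so it has no non zero
homomorphism to `ℤ`. -/
theorem hom_Gamma0_one_eq_zero (φ : Additive (Gamma0 1) →+ ℤ) : φ = 0 := by
  have hmem : ∀ g : SL(2, ℤ), g ∈ Gamma0 1 := fun g => by
    rw [Gamma0_mem]
    exact Subsingleton.elim _ _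
  let f : SL(2, ℤ) → ℤ := fun g => φ (Additive.ofMul ⟨g, hmem g⟩)
  have hmul : ∀ g h, f (g * h) = f g + f h := fun g h => by
    change φ (Additive.ofMul (⟨g, hmem g⟩ * ⟨h, hmem h⟩ : Gamma0 1)) = _
    rw [ofMul_mul, map_add]
  have hone : f 1 = 0 := by
    have h := hmul 1 1
    rw [mul_one] at h
    omega
  have hpow : ∀ (g : SL(2, ℤ)) (n : ℕ), f (g ^ n) = n * f g := by
    intro g n
    induction n with
    | zero => rw [pow_zero, hone]; simp
    | succ n ih => rw [pow_succ, hmul, ih]; push_cast; ring
  have hS : f ModularGroup.S = 0 := by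
    have h := hpow ModularGroup.S 4
    rw [sl2_S_pow, hone] at h
    omega
  have hST : f (ModularGroup.S * ModularGroup.T) = 0 := by
    have h := hpow (ModularGroup.S * ModularGroup.T) 6
    rw [sl2_ST_pow, hone] at h
    omega
  have hT : f ModularGroup.T = 0 := by
    rw [hmul, hS] at hST
    omega
  have hinv : ∀ g, f g⁻¹ = - f g := fun g => by
    have h := hmul g g⁻¹
    rw [mul_inv_cancel, hone] at h
    omega
  have hall : ∀ g, f g = 0 := by
    intro g
    have hg : g ∈ Subgroup.closure ({ModularGroup.S, ModularGroup.T} : Set SL(2, ℤ)) := by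
      rw [SpecialLinearGroup.SL2Z_generators]
      exact Subgroup.mem_top g
    induction hg using Subgroup.closure_induction with
    | mem x hx =>
      rcases hx with rfl | hx
      · exact hS
      · rw [Set.mem_singleton_iff.1 hx]; exact hT
    | one => exact hone
    | mul x y _ _ hx hy => rw [hmul, hx, hy, add_zero]
    | inv x _ hx => rw [hinv, hx, neg_zero]
  ext g
  exact hall g.1

end Fermat.Agent.S12.KW
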