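/-
S12/S15, block KW (architect helper269), node K4: at prime level `q`, `U_q = - w` on `Hom(Γ₀(q), ℤ)` and on
`Hom_{par,ell}(Γ₀(q), ℤ/n)`.
-/
import Fermat.Agent.S12.KW.SL2
import Fermat.Agent.S41.LC.RelA
import Fermat.Agent.S41.LC.RelB
import Fermat.Agent.Lib.HeckeHom.Faithful

set_option autoImplicit false

namespace Fermat.Agent.S12.KW

open CongruenceSubgroup
open Fermat.Agent.Lib.HeckeHom Fermat.Agent.S16.Lift
open scoped MatrixGroups

variable {q : ℕ} (hq : q.Prime) (h : Nat.Coprime q 1) [NeZero (1 * q)]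

/-- From `S41.res_cores` (`res (cores y) = y + U (al y)`), `S41.al_al` and `hom_Gamma0_one_eq_zero`. -/
theorem heckeHomU_eq_neg_al (φ : Additive (Gamma0 (1 * q)) →+ ℤ) :
    heckeHomU (Dvd.intro_left 1 rfl : q ∣ 1 * q) φ = - S41.al 1 q hq h φ := by
  have h1 := S41.LC.res_cores hq h (S41.al 1 q hq h φ)
  rw [hom_Gamma0_one_eq_zero (S41.cores 1 q hq h (S41.al 1 q hq h φ)), map_zero,
    S41.LC.al_al hq h φ] at h1
  exact eq_neg_of_add_eq_zero_right h1.symm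

/-- Reduction modulo `n`: lift `ψ` to `ℤ` (`redHom_surjective`), then `heckeHomU_castTo` and
`S41.IsCorr.corrHom_comp`. -/
theorem heckeHomU_eq_neg_al_mod (n : ℕ) (ψ : homPE (1 * q) (ZMod n)) :
    heckeHomU (Dvd.intro_left 1 rfl : q ∣ 1 * q) ψ.1 = - S41.al 1 q hq h ψ.1 := by
  obtain ⟨φ, rfl⟩ := redHom_surjective (1 * q) n ψ
  have hal : S41.al 1 q hq h (castTo (ZMod n) φ.1) = castTo (ZMod n) (S41.al 1 q hq h φ.1) :=
    S41.IsCorr.corrHom_comp (S41.isCorr_al 1 q hq h) (Int.castAddHom (ZMod n)) φ.1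
  show heckeHomU (Dvd.intro_left 1 rfl : q ∣ 1 * q) (castTo (ZMod n) φ.1) =
    - S41.al 1 q hq h (castTo (ZMod n) φ.1)
  rw [heckeHomU_castTo, hal, heckeHomU_eq_neg_al hq h, map_neg]

end Fermat.Agent.S12.KW
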