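/-
S12/S15, block KW (architect helper269), node K5W: the dictionary `Rel` is compatible with `(w, - U_q)`
at the prime level `1 * q`.
-/
import Fermat.Agent.S12.KW.MultW
import Fermat.Agent.S12.KW.UAl

set_option autoImplicit false

namespace Fermat.Agent.S12.KW

open ModularCurve AlgebraicCurve CongruenceSubgroup
open Fermat.Agent.S24 Fermat.Agent.S15 Fermat.Agent.Lib.HeckeHom Fermat.Agent.GAL.Mult
open Fermat.Agent.S16.Lift

/-- `u ↦ w u`, `E ↦ w • E` (`SemilinearAut.pic0_smul_mk`, `divisor_smul_apply`, `ord_smul`),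
`isMult_fricke`, `heckeHomU_eq_neg_al_mod`, `coe_actMod_U`; a prime `r ∣ 1 * q` is `q`. -/
theorem rel_W {q : ℕ} (hq : q.Prime) [NeZero (1 * q)] (n : ℕ) [NeZero n]
    (w : FN (1 * q) ≃ₐ[Kbar] FN (1 * q)) (hw : IsFricke (1 * q) w)
    {r : ℕ} (hr : r.Prime) (hrM : r ∣ 1 * q) (D : JZero (1 * q)) (ψ : homPE (1 * q) (ZMod n))
    (h : Rel (1 * q) n D ψ) :
    Rel (1 * q) n (autJ (1 * q) w D)
      (actMod (1 * q) ∅ n (- uH hr hrM) ψ) := by
  have hrq : r = q := (Nat.prime_dvd_prime_iff_eq hr hq).1 (by simpa using hrM)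
  subst hrq
  obtain ⟨u, E, hu, hord, rfl, hm⟩ := h
  refine ⟨w u, SemilinearAut.degZeroSMulHom (SemilinearAut.ofAlgAut w) E, ?_, ?_, ?_, ?_⟩
  · exact (map_ne_zero_iff w w.injective).mpr hu
  · intro v
    rw [SemilinearAut.coe_degZeroSMulHom, SemilinearAut.divisor_smul_apply, ← hord]
    have h1 := SemilinearAut.ord_smul (SemilinearAut.ofAlgAut w)
      ((SemilinearAut.ofAlgAut w)⁻¹ • v) u
    rw [smul_inv_smul, SemilinearAut.ofAlgAut_smul] at h1
    exact h1
  · rw [autJ_apply, SemilinearAut.pic0_smul_mk]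
  · have h2 : ((actMod (1 * r) ∅ n (- uH hr hrM) ψ : homPE (1 * r) (ZMod n)) :
        Additive (Gamma0 (1 * r)) →+ ZMod n) = S41.al 1 r hr (Nat.coprime_one_right r) ψ.1 := by
      rw [map_neg, LinearMap.neg_apply, AddSubgroup.coe_neg]
      have h3 := coe_actMod_U (1 * r) ∅ n hr hrM (Set.notMem_empty r) ψ
      have h4 := heckeHomU_eq_neg_al_mod hr (Nat.coprime_one_right r) n ψ
      rw [uH, h3, h4, neg_neg]
    rw [h2]
    exact isMult_fricke hr (Nat.coprime_one_right r) w hw hm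

end Fermat.Agent.S12.KW
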