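/-
S12/S15, block KW (architect helper269): `S15.A.wN N` is the Fricke involution.
-/
import Fermat.Agent.S12.KW.Defs
import Fermat.Agent.S15.A.Cusp.Defs

set_option autoImplicit false

namespace Fermat.Agent.S12.KW

open ModularCurve AlgebraicCurve
open Fermat.Agent.S24 Fermat.Agent.S15 Fermat.Agent.GAL.E

/-- `wN N = levelCast ∘ wAL 1 N ∘ levelCast⁻¹`: `levelCast_symm`, `levelCast_JF`, `wAL_JF 1 N _ 1 d d'`,
`JF_congr (one_mul d)`. -/
theorem isFricke_wN (N : ℕ) [NeZero N] : IsFricke N (Fermat.Agent.S15.A.wN N) := by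
  intro d d' _ _ hd hd' hdd'
  have h1d : 1 * d ∣ 1 * N := by rwa [one_mul, one_mul]
  have h1d' : 1 * d' ∣ 1 * N := by rwa [one_mul, one_mul]
  have hdN : d ∣ 1 * N := by rwa [one_mul]
  have hd'N : d' ∣ 1 * N := by rwa [one_mul]
  show levelCast (one_mul N) (wAL 1 N _ ((levelCast (one_mul N)).symm (JF N d hd))) = _
  rw [levelCast_symm, levelCast_JF (one_mul N).symm d hd hdN,
    JF_congr (one_mul d).symm hdN h1d, wAL_JF 1 N _ 1 d d' (one_dvd 1) hdd' h1d h1d',
    JF_congr (one_mul d') h1d' hd'N, levelCast_JF (one_mul N) d' hd'N hd']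

end Fermat.Agent.S12.KW
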