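/-
S12/S15, block KW (architect helper269): the theorem KW.
-/
import Fermat.Agent.S12.KW.Abs
import Fermat.Agent.S12.KW.AbsKill
import Fermat.Agent.S12.KW.Rel
import Fermat.Agent.S12.KW.RelEx
import Fermat.Agent.S12.KW.RelT
import Fermat.Agent.S12.KW.RelW
import Fermat.Agent.S12.KW.Gal
import Fermat.Agent.S12.KW.WN
import Fermat.Agent.S17

set_option autoImplicit false

namespace Fermat.Agent.S12.KW

open ModularCurve AlgebraicCurve CongruenceSubgroup
open Fermat.Agent.S24 Fermat.Agent.S15 Fermat.Agent.Lib.HeckeHom Fermat.Agent.GAL.Mult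
open Fermat.Agent.S16.Lift

/-- The elements of `corr` respect the dictionary. -/
theorem rel_corr {q : ℕ} (hq : q.Prime) [NeZero (1 * q)] (n : ℕ) [NeZero n]
    (w : FN (1 * q) ≃ₐ[Kbar] FN (1 * q)) (hw : IsFricke (1 * q) w)
    (x : AddMonoid.End (JZero (1 * q)) × HA (1 * q)) (hx : x ∈ corr (1 * q) w)
    (D : JZero (1 * q)) (ψ : homPE (1 * q) (ZMod n)) (h : Rel (1 * q) n D ψ) :
    Rel (1 * q) n (x.1 D) (actMod (1 * q) ∅ n x.2 ψ) := by
  refine rel_of_mem_closure (actMod (1 * q) ∅ n) (corrGen (1 * q) w) (Rel (1 * q) n)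
    (rel_zero _ n) (rel_add _ n) (rel_neg _ n) ?_ x hx D ψ h
  rintro y (⟨p, hp, hpM, rfl⟩ | ⟨r, hr, hrM, rfl⟩) a b hab
  · exact rel_T _ n hp hpM a b hab
  · exact rel_W hq n w hw hr hrM a b hab

/-- An element of `corr` with trivial second component kills the torsion. -/
theorem corr_kills_torsion {q : ℕ} (hq : q.Prime) [NeZero (1 * q)]
    (w : FN (1 * q) ≃ₐ[Kbar] FN (1 * q)) (hw : IsFricke (1 * q) w)
    (x : AddMonoid.End (JZero (1 * q)) × HA (1 * q)) (hx : x ∈ corr (1 * q) w) (hx2 : x.2 = 0)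
    (n : ℕ) (hn : 0 < n) (D : JZero (1 * q)) (hD : n • D = 0) : x.1 D = 0 := by
  have : NeZero n := ⟨hn.ne'⟩
  obtain ⟨ψ, hψ⟩ := exists_rel (1 * q) n D hD
  have h := rel_corr hq n w hw x hx D ψ hψ
  rw [hx2, map_zero, LinearMap.zero_apply] at h
  exact eq_zero_of_rel_zero _ n h

theorem kw_one_mul {q : ℕ} (hq : q.Prime) (hq5 : 5 ≤ q) [NeZero (1 * q)] :
    KWStatement (1 * q) := by
  intro w hw x hx hx2 D hD
  refine eq_zero_of_kills_torsion (G := GQ)
    (fun n hn y => Fermat.Agent.S17.W.exists_nsmul_eq_JZero (1 * q) n hn y)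
    (Fermat.Agent.S17.result (1 * q) (by rwa [one_mul]) (by rwa [one_mul])) x.1
    (fun σ y => corr_galois _ w hw x hx σ y)
    (fun n hn y hy => corr_kills_torsion hq w hw x hx hx2 n hn y hy) D hD

theorem kw_aux (M q : ℕ) [NeZero M] (h : M = 1 * q) (hq : q.Prime) (hq5 : 5 ≤ q) :
    KWStatement M := by
  subst h
  exact kw_one_mul hq hq5

/-- **KW** at prime level `N ≥ 5`. -/
theorem kw (N : ℕ) [NeZero N] (hN : N.Prime) (hN5 : 5 ≤ N) : KWStatement N :=
  kw_aux N N (one_mul N).symm hN hN5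

/-- **KW** for the involution `S15.A.wN N`. -/
theorem kw_wN (N : ℕ) [NeZero N] (hN : N.Prime) (hN5 : 5 ≤ N)
    (x : AddMonoid.End (JZero N) × HA N) (hx : x ∈ corr N (Fermat.Agent.S15.A.wN N)) (hx2 : x.2 = 0)
    (D : JZero N) (hD : IsRat N D) : x.1 D = 0 :=
  kw N hN hN5 _ (isFricke_wN N) x hx hx2 D hD

end Fermat.Agent.S12.KW
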