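/-
S12/S15, block KW (architect helper269): the contract `S12.FI.KWStmt` of the plan FI.
-/
import Fermat.Agent.S12.KW.Main
import Fermat.Agent.S12.FI.Defs
import Fermat.Agent.S23

set_option autoImplicit false

noncomputable section

namespace Fermat.Agent.S12.KW

open ModularCurve AlgebraicCurve CuspForm
open Fermat.Agent.S24 Fermat.Agent.S15 Fermat.Agent.S16.R

variable (N : ℕ) [Fact N.Prime]

/-- The pair (action on `J₀(N)`, action on cusp forms) attached to a formal Hecke polynomial. -/
def pairHom : FI.HH N →+* AddMonoid.End (JZero N) × HA N :=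
  (((addMonoidEndRingEquivInt (JZero N)).symm : Module.End ℤ (JZero N) →+* AddMonoid.End (JZero N)).comp
    (FI.evJ N : FI.HH N →+* Module.End ℤ (JZero N))).prod
  ((heckeEvalForms N 2).comp (FI.piH N : FI.HH N →+* HeckeAlg))

theorem pairHom_fst_apply (s : FI.HH N) (P : JZero N) : (pairHom N s).1 P = FI.evJ N s P := rfl

theorem pairHom_snd (s : FI.HH N) : (pairHom N s).2 = heckeEvalForms N 2 (FI.piH N s) := rfl

theorem pairHom_mem_corrT (s : FI.HH N) : pairHom N s ∈ corrT N := by
  induction s using FreeAlgebra.induction with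
  | grade0 r =>
    rw [eq_intCast (algebraMap ℤ (FI.HH N)) r, map_intCast]
    exact intCast_mem _ r
  | grade1 q =>
    refine Subring.subset_closure ⟨(q.1 : ℕ), q.1.2, ?_, ?_⟩
    · intro hd
      exact q.2 ((Nat.prime_dvd_prime_iff_eq q.1.2 (Fact.out : N.Prime)).1 hd)
    · refine Prod.ext ?_ ?_
      · refine AddMonoidHom.ext fun P => ?_
        show FI.evJ N (FreeAlgebra.ι ℤ q) P = Tp N (q.1 : ℕ) P
        unfold FI.evJ
        rw [FreeAlgebra.lift_ι_apply]
        rfl
      · rw [pairHom_snd]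
        show heckeEvalForms N 2 (FI.piH N (FreeAlgebra.ι ℤ q)) = _
        unfold FI.piH
        rw [FreeAlgebra.lift_ι_apply]
        exact heckeEvalForms_heckeGen_of_not_dvd _
  | mul a b ha hb => rw [map_mul]; exact mul_mem ha hb
  | add a b ha hb => rw [map_add]; exact add_mem ha hb

theorem corrT_le_corr (w : FN N ≃ₐ[Kbar] FN N) : corrT N ≤ corr N w :=
  Subring.closure_mono Set.subset_union_left

/-- **The contract KW of the plan FI.** -/
theorem kwStmt (hN5 : 5 ≤ N) : FI.KWStmt N := by
  intro s₁ s₂ h P hP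
  have hN : N.Prime := Fact.out
  set w := Fermat.Agent.S15.A.wN N with hw
  have hW : ((autJ N w, - uH hN dvd_rfl) : AddMonoid.End (JZero N) × HA N) ∈ corr N w :=
    Subring.subset_closure (Or.inr ⟨N, hN, dvd_rfl, rfl⟩)
  have hx : pairHom N s₁ - pairHom N s₂ * (autJ N w, - uH hN dvd_rfl) ∈ corr N w :=
    sub_mem (corrT_le_corr N w (pairHom_mem_corrT N s₁))
      (mul_mem (corrT_le_corr N w (pairHom_mem_corrT N s₂)) hW)
  have hU : heckeEvalForms N 2 (FI.XN N) = uH hN dvd_rfl :=
    heckeEvalForms_heckeGen_of_dvd (N := N) (k := 2) (q := ⟨N, hN⟩) dvd_rfl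
  have hx2 : (pairHom N s₁ - pairHom N s₂ * (autJ N w, - uH hN dvd_rfl)).2 = 0 := by
    apply latticeActionHom_injective N ∅ (Fermat.Agent.S23.result N)
    rw [map_zero, ← h]
    show latticeActionHom N ∅ ((pairHom N s₁).2 - (pairHom N s₂).2 * (- uH hN dvd_rfl)) = _
    rw [pairHom_snd, pairHom_snd, ← hU, mul_neg, sub_neg_eq_add, ← map_mul, ← map_add]
    rfl
  exact kw_wN N hN hN5 _ hx hx2 P hP

end Fermat.Agent.S12.KW

end
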