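/-
S12/S15, block KW (architect helper269): `U_N² = 1` in the Hecke algebra of weight 2 and prime level `N`
(from `U_N = - w` on `Hom(Γ₀(N), ℤ)`), and the contract `S12.FI.U2Stmt`.
-/
import Fermat.Agent.S12.KW.Defs
import Fermat.Agent.S12.KW.UAl
import Fermat.Agent.S12.FI.Defs

set_option autoImplicit false

noncomputable section

namespace Fermat.Agent.S12.KW

open ModularCurve AlgebraicCurve CuspForm CongruenceSubgroup
open Fermat.Agent.S24 Fermat.Agent.S15 Fermat.Agent.S16.R Fermat.Agent.Lib.HeckeHom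

theorem uH_mul_uH_one_mul {q : ℕ} (hq : q.Prime) [NeZero (1 * q)] {r : ℕ} (hr : r.Prime)
    (hrM : r ∣ 1 * q) : uH hr hrM * uH hr hrM = (1 : HA (1 * q)) := by
  have hrq : r = q := (Nat.prime_dvd_prime_iff_eq hr hq).1 (by simpa using hrM)
  subst hrq
  have h : Nat.Coprime r 1 := Nat.coprime_one_right r
  apply latHom_injective (1 * r) ∅
  rw [map_mul, map_one]
  refine LinearMap.ext fun φ => Subtype.ext ?_
  show ((latHom (1 * r) ∅ (uH hr hrM) (latHom (1 * r) ∅ (uH hr hrM) φ) : Lam (1 * r)) :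
    Additive (Gamma0 (1 * r)) →+ ℤ) = φ.1
  unfold uH
  rw [coe_latHom_U, coe_latHom_U, heckeHomU_eq_neg_al hr h, heckeHomU_eq_neg_al hr h, map_neg,
    neg_neg, S41.LC.al_al]

theorem uH_mul_uH_aux (M q : ℕ) [NeZero M] (h : M = 1 * q) (hq : q.Prime) {r : ℕ} (hr : r.Prime)
    (hrM : r ∣ M) : uH hr hrM * uH hr hrM = (1 : HA M) := by
  subst h
  exact uH_mul_uH_one_mul hq hr hrM

/-- `U_N² = 1` at prime level. -/
theorem uH_mul_uH (N : ℕ) [NeZero N] (hN : N.Prime) :
    uH hN dvd_rfl * uH hN dvd_rfl = (1 : HA N) :=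
  uH_mul_uH_aux N N (one_mul N).symm hN hN dvd_rfl

/-- **The contract U2 of the plan FI.** -/
theorem u2Stmt (N : ℕ) [Fact N.Prime] : FI.U2Stmt N := by
  have hN : N.Prime := Fact.out
  have hU : heckeEvalForms N 2 (FI.XN N) = uH hN dvd_rfl :=
    heckeEvalForms_heckeGen_of_dvd (N := N) (k := 2) (q := ⟨N, hN⟩) dvd_rfl
  show latticeActionHom N ∅ (heckeEvalForms N 2 (FI.XN N * FI.XN N)) = 1
  rw [map_mul, hU, uH_mul_uH N hN, map_one]

end Fermat.Agent.S12.KW

end
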